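/-
Row S15, node GEO (helper386): leading terms of Laurent series.

`IsLead x n a` : `x = a q^n + (higher order terms)` (`a = 0` is allowed).  This predicate is
closed under sums, products and weakening of the exponent, so that estimates of the orders of
polynomial expressions need no case distinction on vanishing.  Mathlib-only.
-/
import Mathlib

set_option autoImplicit false

noncomputable section

open HahnSeries

namespace Fermat.Agent.S15.H386

variable {k : Type*} [Field k]

/-- `x = a q^n + (higher order terms)`; `a = 0` is allowed. -/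
def IsLead (x : LaurentSeries k) (n : ℤ) (a : k) : Prop :=
  x.coeff n = a ∧ ∀ m < n, x.coeff m = 0

theorem IsLead.coeff_eq {x : LaurentSeries k} {n : ℤ} {a : k} (h : IsLead x n a) :
    x.coeff n = a := h.1

theorem IsLead.coeff_eq_zero {x : LaurentSeries k} {n : ℤ} {a : k} (h : IsLead x n a) {m : ℤ}
    (hm : m < n) : x.coeff m = 0 := h.2 m hm

theorem IsLead.le_orderTop {x : LaurentSeries k} {n : ℤ} {a : k} (h : IsLead x n a) :
    (n : WithTop ℤ) ≤ x.orderTop :=
  le_orderTop_iff_forall.mpr fun j hj => h.2 j (by exact_mod_cast hj)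

theorem isLead_iff_lt_orderTop (x : LaurentSeries k) (n : ℤ) (a : k) :
    IsLead x n a ↔ (n : WithTop ℤ) < (x - single n a).orderTop := by
  constructor
  · intro h
    have h1 : ((n + 1 : ℤ) : WithTop ℤ) ≤ (x - single n a).orderTop := by
      refine le_orderTop_iff_forall.mpr fun j hj => ?_
      have hj' : j < n + 1 := by exact_mod_cast hj
      rw [HahnSeries.coeff_sub, HahnSeries.coeff_single]
      rcases eq_or_lt_of_le (Int.lt_add_one_iff.mp hj') with rfl | hlt
      · rw [if_pos rfl, h.1, sub_self]
      · rw [if_neg hlt.ne, h.2 j hlt, sub_zero]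
    refine lt_of_lt_of_le ?_ h1
    exact_mod_cast Int.lt_add_one_iff.mpr le_rfl
  · intro h
    refine ⟨?_, fun m hm => ?_⟩
    · have := coeff_eq_zero_of_lt_orderTop h
      rw [HahnSeries.coeff_sub, HahnSeries.coeff_single, if_pos rfl] at this
      exact sub_eq_zero.mp this
    · have := coeff_eq_zero_of_lt_orderTop (lt_trans (by exact_mod_cast hm) h)
      rw [HahnSeries.coeff_sub, HahnSeries.coeff_single, if_neg hm.ne, sub_zero] at this
      exact this

theorem isLead_zero (n : ℤ) : IsLead (0 : LaurentSeries k) n 0 :=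
  ⟨rfl, fun _ _ => rfl⟩

theorem isLead_single (n : ℤ) (a : k) : IsLead (single n a : LaurentSeries k) n a :=
  ⟨by rw [HahnSeries.coeff_single, if_pos rfl], fun m hm => by
    rw [HahnSeries.coeff_single, if_neg hm.ne]⟩

theorem isLead_one : IsLead (1 : LaurentSeries k) 0 1 := by
  rw [← HahnSeries.single_zero_one]
  exact isLead_single 0 1

theorem isLead_intCast (z : ℤ) : IsLead ((z : ℤ) : LaurentSeries k) 0 (z : k) := by
  rw [← HahnSeries.single_zero_intCast]
  exact isLead_single 0 _

theorem IsLead.add {x y : LaurentSeries k} {n : ℤ} {a b : k} (hx : IsLead x n a)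
    (hy : IsLead y n b) : IsLead (x + y) n (a + b) :=
  ⟨by rw [HahnSeries.coeff_add, hx.1, hy.1], fun m hm => by
    rw [HahnSeries.coeff_add, hx.2 m hm, hy.2 m hm, add_zero]⟩

theorem IsLead.neg {x : LaurentSeries k} {n : ℤ} {a : k} (hx : IsLead x n a) :
    IsLead (-x) n (-a) :=
  ⟨by rw [HahnSeries.coeff_neg, hx.1], fun m hm => by
    rw [HahnSeries.coeff_neg, hx.2 m hm, neg_zero]⟩

theorem IsLead.sub {x y : LaurentSeries k} {n : ℤ} {a b : k} (hx : IsLead x n a)
    (hy : IsLead y n b) : IsLead (x - y) n (a - b) := by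
  rw [sub_eq_add_neg, sub_eq_add_neg]
  exact hx.add hy.neg

/-- Weakening of the exponent. -/
theorem IsLead.of_lt {x : LaurentSeries k} {n : ℤ} {a : k} (hx : IsLead x n a) {n' : ℤ}
    (h : n' < n) : IsLead x n' 0 :=
  ⟨hx.2 n' h, fun m hm => hx.2 m (lt_trans hm h)⟩

theorem IsLead.of_le {x : LaurentSeries k} {n : ℤ} {a : k} (hx : IsLead x n a) {n' : ℤ}
    (h : n' ≤ n) : ∃ a', IsLead x n' a' := by
  rcases eq_or_lt_of_le h with rfl | hlt
  · exact ⟨a, hx⟩
  · exact ⟨0, hx.of_lt hlt⟩

theorem IsLead.mul {x y : LaurentSeries k} {n m : ℤ} {a b : k} (hx : IsLead x n a)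
    (hy : IsLead y m b) : IsLead (x * y) (n + m) (a * b) := by
  rw [isLead_iff_lt_orderTop]
  have hx' := (isLead_iff_lt_orderTop x n a).mp hx
  have hy' := (isLead_iff_lt_orderTop y m b).mp hy
  have hsplit : x * y - single (n + m) (a * b) =
      (x - single n a) * y + single n a * (y - single m b) := by
    rw [← HahnSeries.single_mul_single]
    ring
  rw [hsplit]
  refine lt_of_lt_of_le (lt_min ?_ ?_) min_orderTop_le_orderTop_add
  · refine lt_of_lt_of_le ?_ orderTop_add_le_mul
    rw [WithTop.coe_add]
    exact WithTop.add_lt_add_of_lt_of_le (WithTop.coe_ne_top) hx' hy.le_orderTop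
  · refine lt_of_lt_of_le ?_ orderTop_add_le_mul
    rw [WithTop.coe_add]
    exact WithTop.add_lt_add_of_le_of_lt (WithTop.coe_ne_top) orderTop_single_le hy'

theorem IsLead.pow {x : LaurentSeries k} {n : ℤ} {a : k} (hx : IsLead x n a) (i : ℕ) :
    IsLead (x ^ i) (i * n) (a ^ i) := by
  induction i with
  | zero =>
    rw [pow_zero, pow_zero, Nat.cast_zero, zero_mul]
    exact isLead_one
  | succ i ih =>
    rw [pow_succ, pow_succ, Nat.cast_succ, add_mul, one_mul]
    exact ih.mul hx

theorem isLead_sum {ι : Type*} (s : Finset ι) (f : ι → LaurentSeries k) (n : ℤ) (a : ι → k)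
    (h : ∀ i ∈ s, IsLead (f i) n (a i)) : IsLead (∑ i ∈ s, f i) n (∑ i ∈ s, a i) := by
  classical
  induction s using Finset.induction_on with
  | empty => simpa using isLead_zero (k := k) n
  | insert j s hj ih =>
    rw [Finset.sum_insert hj, Finset.sum_insert hj]
    exact (h j (Finset.mem_insert_self j s)).add
      (ih fun i hi => h i (Finset.mem_insert_of_mem hi))

theorem isLead_multiset_prod {ι : Type*} (s : Multiset ι) (f : ι → LaurentSeries k) (n : ι → ℤ)
    (a : ι → k) (h : ∀ i ∈ s, IsLead (f i) (n i) (a i)) :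
    IsLead (s.map f).prod (s.map n).sum (s.map a).prod := by
  induction s using Multiset.induction_on with
  | empty => simpa using isLead_one (k := k)
  | cons j s ih =>
    rw [Multiset.map_cons, Multiset.prod_cons, Multiset.map_cons, Multiset.sum_cons,
      Multiset.map_cons, Multiset.prod_cons]
    exact (h j (Multiset.mem_cons_self j s)).mul
      (ih fun i hi => h i (Multiset.mem_cons_of_mem hi))

/-- Uniqueness of the leading term. -/
theorem IsLead.unique {x : LaurentSeries k} {n n' : ℤ} {a a' : k} (h : IsLead x n a)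
    (h' : IsLead x n' a') (ha : a ≠ 0) (ha' : a' ≠ 0) : n = n' ∧ a = a' := by
  have hn : n = n' := by
    rcases lt_trichotomy n n' with hlt | heq | hgt
    · exact absurd (h.1.symm.trans (h'.2 n hlt)) ha
    · exact heq
    · exact absurd (h'.1.symm.trans (h.2 n' hgt)) ha'
  subst hn
  exact ⟨rfl, h.1.symm.trans h'.1⟩

/-- A series with a nonzero leading term at `n` has no leading term at a bigger exponent. -/
theorem IsLead.le_of_ne_zero {x : LaurentSeries k} {n n' : ℤ} {a a' : k} (h : IsLead x n a)
    (ha : a ≠ 0) (h' : IsLead x n' a') : n' ≤ n := by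
  by_contra hlt
  exact ha (h.1.symm.trans (h'.2 n (not_le.mp hlt)))

end Fermat.Agent.S15.H386
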