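/-
Row S15, node GEO (helper386): the classical modular polynomial `Φ_p` has "modular shape".

For every `D : S28.ModPolyData p` (the modular polynomial of level `p`: monic of degree `p + 1`
with `Φ(j, j_p) = 0 = Φ(j_p, j)`; it exists for every prime `p`, see the `nonempty_modPolyData`
of row S28) the polynomial `D.Φ` satisfies helper962's `IsModularShape p`:
`Φ = Y^{p+1} + c_p(X) Y^p + … + c_0(X)` with `c_0 = ± X^{p+1} + …`, `c_p = - X^p + …` and
`deg c_k ≤ p` for `0 < k < p`.

Proof: over `ℂ`, `Φ(j_p, Y) = (Y - j_{p²}) ∏_{b < p} (Y - j(ζ^b q))` (S28/H386/RootList); compare the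
leading terms of the `q`-expansions of the coefficients.
-/
import Mathlib
import Fermat.Agent.S28.H386.RootList
import Fermat.Agent.S15.H962.NewtonVal
import Fermat.Agent.S15.H386.LeadTerm

set_option autoImplicit false

noncomputable section

open ModularCurve HahnSeries Polynomial
open Fermat.Agent.S28 Fermat.Agent.S28.H386 Fermat.Agent.S15.H962

namespace Fermat.Agent.S15.H386

variable {k : Type*} [Field k]

/-! ### Leading terms of the basic series -/

theorem isLead_jqModC : IsLead (jqModC k) (-1) 1 :=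
  ⟨coeff_jqModC_neg_one k, fun _ hm => coeff_jqModC_of_lt k hm⟩

theorem isLead_qExpand (p : ℕ) [NeZero p] {f : LaurentSeries k} {n : ℤ} {a : k}
    (h : IsLead f n a) : IsLead (qExpand k p f) (p * n) a := by
  refine ⟨by rw [qExpand_coeff_mul]; exact h.1, fun m hm => ?_⟩
  by_cases hd : (p : ℤ) ∣ m
  · obtain ⟨c, rfl⟩ := hd
    rw [qExpand_coeff_mul]
    have hp : (0 : ℤ) < p := by exact_mod_cast Nat.pos_of_ne_zero (NeZero.ne p)
    exact h.2 c (lt_of_mul_lt_mul_left hm hp.le)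
  · exact qExpand_coeff_of_not_dvd p f hd

theorem isLead_twist (ξ : kˣ) {f : LaurentSeries k} {n : ℤ} {a : k} (h : IsLead f n a) :
    IsLead (twist ξ f) n (((ξ ^ n : kˣ) : k) * a) :=
  ⟨by rw [twist_coeff, h.1], fun m hm => by rw [twist_coeff, h.2 m hm, mul_zero]⟩

theorem isLead_jd (p : ℕ) [NeZero p] : IsLead (jd k p) (-(p : ℤ)) 1 := by
  have := isLead_qExpand p (isLead_jqModC (k := k))
  rwa [mul_neg, mul_one] at this

theorem isLead_qExpand_jd (p : ℕ) [NeZero p] :
    IsLead (qExpand k p (jd k p)) (-((p : ℤ) * p)) 1 := by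
  have := isLead_qExpand p (isLead_jd (k := k) p)
  rwa [mul_neg] at this

theorem isLead_twist_jqModC (ξ : kˣ) : IsLead (twist ξ (jqModC k)) (-1) ((ξ⁻¹ : kˣ) : k) := by
  have := isLead_twist ξ (isLead_jqModC (k := k))
  rwa [mul_one, zpow_neg_one] at this

/-! ### Leading term of an integer polynomial in a series with a pole -/

theorem isLead_intEval {y : LaurentSeries k} {m : ℤ} (hm : 0 < m) (hy : IsLead y (-m) 1)
    (c : ℤ[X]) (d : ℕ) (hd : c.natDegree ≤ d) :
    IsLead (intEval y c) (-(m * d)) ((c.coeff d : ℤ) : k) := by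
  have h1 : intEval y c =
      ∑ i ∈ Finset.range (d + 1), ((c.coeff i : ℤ) : LaurentSeries k) * y ^ i := by
    unfold intEval
    rw [Polynomial.coe_eval₂RingHom, Polynomial.eval₂_eq_sum_range' _ (Nat.lt_succ_of_le hd)]
    simp
  have hterm : ∀ i : ℕ, IsLead (((c.coeff i : ℤ) : LaurentSeries k) * y ^ i) (-(m * i))
      ((c.coeff i : ℤ) : k) := by
    intro i
    have h2 := (isLead_intCast (k := k) (c.coeff i)).mul (hy.pow i)
    rw [one_pow, mul_one, zero_add] at h2
    have h3 : (i : ℤ) * -m = -(m * i) := by ring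
    rwa [h3] at h2
  have hlow : IsLead (∑ i ∈ Finset.range d, ((c.coeff i : ℤ) : LaurentSeries k) * y ^ i)
      (-(m * d)) 0 := by
    have h2 := isLead_sum (Finset.range d)
      (fun i => ((c.coeff i : ℤ) : LaurentSeries k) * y ^ i) (-(m * d)) (fun _ => (0 : k))
      (fun i hi => (hterm i).of_lt (by
        have hi' : (i : ℤ) < d := by exact_mod_cast Finset.mem_range.mp hi
        nlinarith))
    simpa using h2
  rw [h1, Finset.sum_range_succ]
  have h4 := hlow.add (hterm d)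
  rwa [zero_add] at h4

/-! ### Coefficients of a product of linear factors with simple poles -/

theorem isLead_coeff_prod_X_sub_C (s : Multiset (LaurentSeries k))
    (hs : ∀ r ∈ s, ∃ a, IsLead r (-1) a) (i : ℕ) :
    ∃ a, IsLead (((s.map fun r => X - Polynomial.C r).prod).coeff i)
      ((i : ℤ) - Multiset.card s) a := by
  induction s using Multiset.induction_on generalizing i with
  | empty =>
    rw [Multiset.map_zero, Multiset.prod_zero, Multiset.card_zero, Nat.cast_zero, sub_zero,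
      Polynomial.coeff_one]
    rcases Nat.eq_zero_or_pos i with rfl | hi
    · rw [if_pos rfl, Nat.cast_zero]
      exact ⟨1, isLead_one⟩
    · rw [if_neg hi.ne']
      exact ⟨0, isLead_zero _⟩
  | cons r s ih =>
    obtain ⟨a, ha⟩ := hs r (Multiset.mem_cons_self r s)
    have ih' := ih fun t ht => hs t (Multiset.mem_cons_of_mem ht)
    rw [Multiset.map_cons, Multiset.prod_cons, Multiset.card_cons]
    set Q := (s.map fun r => X - Polynomial.C r).prod with hQ
    rcases Nat.eq_zero_or_pos i with rfl | hi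
    · obtain ⟨a₂, h₂⟩ := ih' 0
      have h0 : ((X - Polynomial.C r) * Q).coeff 0 = -r * Q.coeff 0 := by
        rw [Polynomial.mul_coeff_zero, Polynomial.coeff_sub, Polynomial.coeff_X_zero,
          Polynomial.coeff_C_zero, zero_sub]
      rw [h0]
      refine ⟨-a * a₂, ?_⟩
      have h3 := ha.neg.mul h₂
      have h4 : (-1 : ℤ) + (((0 : ℕ) : ℤ) - (Multiset.card s : ℤ)) =
          ((0 : ℕ) : ℤ) - ((Multiset.card s + 1 : ℕ) : ℤ) := by
        push_cast; ring
      rwa [h4] at h3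
    · obtain ⟨j, rfl⟩ : ∃ j, i = j + 1 := ⟨i - 1, by omega⟩
      obtain ⟨a₁, h₁⟩ := ih' j
      obtain ⟨a₂, h₂⟩ := ih' (j + 1)
      have h0 : ((X - Polynomial.C r) * Q).coeff (j + 1) = Q.coeff j - r * Q.coeff (j + 1) := by
        rw [sub_mul, Polynomial.coeff_sub, Polynomial.coeff_X_mul, Polynomial.coeff_C_mul]
      rw [h0]
      refine ⟨a₁ - a * a₂, ?_⟩
      have h3 := ha.mul h₂
      have h4 : (-1 : ℤ) + (((j + 1 : ℕ) : ℤ) - (Multiset.card s : ℤ)) =
          (j : ℤ) - (Multiset.card s : ℤ) := by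
        push_cast; ring
      rw [h4] at h3
      have h5 := h₁.sub h3
      have h6 : (j : ℤ) - (Multiset.card s : ℤ) =
          ((j + 1 : ℕ) : ℤ) - ((Multiset.card s + 1 : ℕ) : ℤ) := by
        push_cast; ring
      rwa [h6] at h5

/-! ### The coefficients of `Φ_p(j_p, Y)` -/

section Main

variable {p : ℕ} [NeZero p] (D : ModPolyData p)

theorem coeff_phiAt (y : LaurentSeries k) (i : ℕ) :
    (phiAt D.Φ y).coeff i = intEval y (D.Φ.coeff i) :=
  Polynomial.coeff_map _ _

/-- `Q = ∏_{b < p} (Y - j(ζ^b q))`. -/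
def twPoly (p : ℕ) (k : Type*) [Field k] (ζ : kˣ) : (LaurentSeries k)[X] :=
  ((twRoots p k ζ).map fun a => X - Polynomial.C a).prod

theorem phiAt_jp_eq_mul (hp : 1 < p) {ζ : kˣ} (hζ : IsPrimitiveRoot ζ p) :
    phiAt D.Φ (jd k p) = (X - Polynomial.C (qExpand k p (jd k p))) * twPoly p k ζ := by
  rw [phiAt_jp_eq_prod D hp hζ, allRoots, Multiset.map_cons, Multiset.prod_cons, twPoly]

theorem twPoly_monic (ζ : kˣ) : (twPoly p k ζ).Monic :=
  Polynomial.monic_multiset_prod_of_monic _ _ fun a _ => Polynomial.monic_X_sub_C a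

theorem natDegree_twPoly (ζ : kˣ) : (twPoly p k ζ).natDegree = p := by
  rw [twPoly, Polynomial.natDegree_multiset_prod_of_monic _
    (by
      intro f hf
      obtain ⟨a, -, rfl⟩ := Multiset.mem_map.mp hf
      exact Polynomial.monic_X_sub_C a)]
  rw [Multiset.map_map]
  have : (Polynomial.natDegree ∘ fun a : LaurentSeries k => X - Polynomial.C a) = fun _ => 1 := by
    funext a
    exact Polynomial.natDegree_X_sub_C a
  rw [this, Multiset.map_const', Multiset.sum_replicate, card_twRoots, smul_eq_mul, mul_one]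

theorem coeff_twPoly_self (ζ : kˣ) : (twPoly p k ζ).coeff p = 1 := by
  have h := twPoly_monic (p := p) (k := k) ζ
  rwa [Polynomial.Monic, Polynomial.leadingCoeff, natDegree_twPoly] at h

theorem isLead_coeff_twPoly (ζ : kˣ) (i : ℕ) :
    ∃ a, IsLead ((twPoly p k ζ).coeff i) ((i : ℤ) - p) a := by
  have h := isLead_coeff_prod_X_sub_C (twRoots p k ζ) (fun r hr => by
    obtain ⟨b, -, rfl⟩ := Multiset.mem_map.mp hr
    exact ⟨_, isLead_twist_jqModC (ζ ^ b)⟩) i
  rwa [card_twRoots] at h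

/-- The constant coefficient of `Q`. -/
theorem isLead_coeff_zero_twPoly {ζ : kˣ} (hζ : ζ ^ p = 1) :
    ∃ u : k, u ^ (2 * p) = 1 ∧ IsLead ((twPoly p k ζ).coeff 0) (-(p : ℤ)) u := by
  have h0 : (twPoly p k ζ).coeff 0 =
      ((Multiset.range p).map fun b => -twist (ζ ^ b) (jqModC k)).prod := by
    rw [twPoly, Polynomial.coeff_zero_multiset_prod, twRoots, Multiset.map_map, Multiset.map_map]
    congr 1
    refine Multiset.map_congr rfl fun b _ => ?_
    simp
  have h1 := isLead_multiset_prod (Multiset.range p) (fun b => -twist (ζ ^ b) (jqModC k))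
    (fun _ => (-1 : ℤ)) (fun b => -(((ζ ^ b)⁻¹ : kˣ) : k))
    (fun b _ => (isLead_twist_jqModC (ζ ^ b)).neg)
  have h2 : ((Multiset.range p).map fun _ : ℕ => (-1 : ℤ)).sum = -(p : ℤ) := by
    rw [Multiset.map_const', Multiset.sum_replicate, Multiset.card_range]
    simp
  rw [h2, ← h0] at h1
  refine ⟨_, ?_, h1⟩
  rw [← Multiset.prod_map_pow]
  refine Multiset.prod_eq_one fun x hx => ?_
  obtain ⟨b, -, rfl⟩ := Multiset.mem_map.mp hx
  have h3 : (ζ ^ b)⁻¹ ^ (2 * p) = 1 := by
    rw [inv_pow, ← pow_mul, show b * (2 * p) = p * (b * 2) by ring, pow_mul, hζ, one_pow,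
      inv_one]
  rw [neg_pow, pow_mul, neg_one_sq, one_pow, one_mul, ← Units.val_pow_eq_pow_val, h3,
    Units.val_one]

/-- The coefficients of `Φ_p(j_p, Y)`: coefficient of `Y^{j+1}`. -/
theorem isLead_coeff_phiAt_succ (hp : 1 < p) {ζ : kˣ} (hζ : IsPrimitiveRoot ζ p) (j : ℕ) :
    ∃ a₂, IsLead ((twPoly p k ζ).coeff (j + 1)) (((j + 1 : ℕ) : ℤ) - p) a₂ ∧
      IsLead ((phiAt D.Φ (jd k p)).coeff (j + 1)) (((j + 1 : ℕ) : ℤ) - p - (p : ℤ) * p) (-a₂) := by
  obtain ⟨a₁, h₁⟩ := isLead_coeff_twPoly (p := p) (k := k) ζ j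
  obtain ⟨a₂, h₂⟩ := isLead_coeff_twPoly (p := p) (k := k) ζ (j + 1)
  refine ⟨a₂, h₂, ?_⟩
  have h0 : (phiAt D.Φ (jd k p)).coeff (j + 1) =
      (twPoly p k ζ).coeff j - qExpand k p (jd k p) * (twPoly p k ζ).coeff (j + 1) := by
    rw [phiAt_jp_eq_mul D hp hζ, sub_mul, Polynomial.coeff_sub, Polynomial.coeff_X_mul,
      Polynomial.coeff_C_mul]
  rw [h0]
  have hp' : (1 : ℤ) < p := by exact_mod_cast hp
  have h3 : IsLead ((twPoly p k ζ).coeff j) (((j + 1 : ℕ) : ℤ) - p - (p : ℤ) * p) 0 :=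
    h₁.of_lt (by push_cast; nlinarith)
  have h4 := (isLead_qExpand_jd (k := k) p).mul h₂
  have h5 : -((p : ℤ) * p) + (((j + 1 : ℕ) : ℤ) - p) = ((j + 1 : ℕ) : ℤ) - p - (p : ℤ) * p := by
    ring
  rw [h5, one_mul] at h4
  have h6 := h3.sub h4
  rwa [zero_sub] at h6

/-- The coefficient of `Y^p` of `Φ_p(j_p, Y)` is `-q^{-p²} + …`. -/
theorem isLead_coeff_phiAt_top (hp : 1 < p) {ζ : kˣ} (hζ : IsPrimitiveRoot ζ p) :
    IsLead ((phiAt D.Φ (jd k p)).coeff p) (-((p : ℤ) * p)) (-1) := by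
  obtain ⟨j, hj⟩ : ∃ j, p = j + 1 := ⟨p - 1, by omega⟩
  obtain ⟨a₂, h₂, h⟩ := isLead_coeff_phiAt_succ (k := k) D hp hζ j
  rw [← hj] at h h₂
  rw [sub_self] at h₂
  rw [sub_self, zero_sub] at h
  have h1 : a₂ = 1 := by
    rw [← h₂.coeff_eq, coeff_twPoly_self]
    exact isLead_one.coeff_eq
  rwa [h1] at h

/-- The constant coefficient of `Φ_p(j_p, Y)` is `u q^{-p²-p} + …` with `u` a root of unity. -/
theorem isLead_coeff_phiAt_zero (hp : 1 < p) {ζ : kˣ} (hζ : IsPrimitiveRoot ζ p) :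
    ∃ u : k, u ^ (2 * p) = 1 ∧
      IsLead ((phiAt D.Φ (jd k p)).coeff 0) (-((p : ℤ) * p) - p) u := by
  obtain ⟨u, hu, h⟩ := isLead_coeff_zero_twPoly (p := p) (k := k) hζ.pow_eq_one
  have h0 : (phiAt D.Φ (jd k p)).coeff 0 =
      -qExpand k p (jd k p) * (twPoly p k ζ).coeff 0 := by
    rw [phiAt_jp_eq_mul D hp hζ, Polynomial.mul_coeff_zero, Polynomial.coeff_sub,
      Polynomial.coeff_X_zero, Polynomial.coeff_C_zero, zero_sub]
  rw [h0]
  refine ⟨-1 * u, ?_, ?_⟩
  · rw [mul_pow, hu, mul_one, pow_mul, neg_one_sq, one_pow]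
  · have h1 := (isLead_qExpand_jd (k := k) p).neg.mul h
    have h2 : -((p : ℤ) * p) + -(p : ℤ) = -((p : ℤ) * p) - p := by ring
    rwa [h2] at h1

end Main

/-! ### Modular shape -/

section Shape

variable {p : ℕ} [NeZero p] (D : ModPolyData p)

/-- Comparison: the degree and the leading coefficient of an integer polynomial `c` from the
leading term of `c(j_p)`. -/
theorem natDegree_eq_of_isLead [CharZero k] {c : ℤ[X]} {n : ℕ} {u : k} (hu : u ≠ 0)
    (h : IsLead (intEval (jd k p) c) (-((p : ℤ) * n)) u) :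
    c.natDegree = n ∧ ((c.leadingCoeff : ℤ) : k) = u := by
  have hp : (0 : ℤ) < p := by exact_mod_cast Nat.pos_of_ne_zero (NeZero.ne p)
  have hc : c ≠ 0 := by
    rintro rfl
    rw [map_zero] at h
    exact hu (h.coeff_eq.symm.trans rfl)
  have h1 := isLead_intEval (k := k) hp (isLead_jd p) c c.natDegree le_rfl
  have hlc : ((c.coeff c.natDegree : ℤ) : k) ≠ 0 := by
    rw [Polynomial.coeff_natDegree]
    exact Int.cast_ne_zero.mpr (Polynomial.leadingCoeff_ne_zero.mpr hc)
  obtain ⟨h2, h3⟩ := h1.unique h hlc hu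
  refine ⟨?_, ?_⟩
  · have h4 : (p : ℤ) * c.natDegree = (p : ℤ) * n := neg_injective h2
    exact_mod_cast mul_left_cancel₀ hp.ne' h4
  · rw [← Polynomial.coeff_natDegree]
    exact h3

/-- Comparison: a bound for the degree of an integer polynomial `c` from the order of
`c(j_p)`. -/
theorem natDegree_le_of_isLead [CharZero k] {c : ℤ[X]} {n : ℕ} {m : ℤ} {a : k}
    (h : IsLead (intEval (jd k p) c) m a) (hm : -((p : ℤ) * (n + 1)) < m) :
    c.natDegree ≤ n := by
  have hp : (0 : ℤ) < p := by exact_mod_cast Nat.pos_of_ne_zero (NeZero.ne p)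
  by_contra hcon
  have hd : n + 1 ≤ c.natDegree := by omega
  have hc : c ≠ 0 := by
    rintro rfl
    simp at hd
  have h1 := isLead_intEval (k := k) hp (isLead_jd p) c c.natDegree le_rfl
  have hlc : ((c.coeff c.natDegree : ℤ) : k) ≠ 0 := by
    rw [Polynomial.coeff_natDegree]
    exact Int.cast_ne_zero.mpr (Polynomial.leadingCoeff_ne_zero.mpr hc)
  have h2 := h1.le_of_ne_zero hlc h
  have hd' : ((n : ℤ) + 1) ≤ c.natDegree := by exact_mod_cast hd
  nlinarith

/-- **The modular polynomial has modular shape** (version over a field of characteristic zero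
containing a primitive `p`-th root of unity). -/
theorem isModularShape_of_primitiveRoot [CharZero k] (hp : 1 < p) {ζ : kˣ}
    (hζ : IsPrimitiveRoot ζ p) : IsModularShape p D.Φ := by
  have hp0 : (0 : ℤ) < p := by exact_mod_cast Nat.pos_of_ne_zero (NeZero.ne p)
  -- constant coefficient
  obtain ⟨u, hu, h0⟩ := isLead_coeff_phiAt_zero (k := k) D hp hζ
  have hu0 : u ≠ 0 := by
    rintro rfl
    rw [zero_pow (by omega)] at hu
    exact zero_ne_one hu
  rw [coeff_phiAt] at h0
  have h0' : IsLead (intEval (jd k p) (D.Φ.coeff 0)) (-((p : ℤ) * ((p + 1 : ℕ) : ℤ))) u := by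
    have : -((p : ℤ) * ((p + 1 : ℕ) : ℤ)) = -((p : ℤ) * p) - p := by push_cast; ring
    rwa [this]
  obtain ⟨hd0, hl0⟩ := natDegree_eq_of_isLead hu0 h0'
  -- top coefficient
  have ht := isLead_coeff_phiAt_top (k := k) D hp hζ
  rw [coeff_phiAt] at ht
  obtain ⟨hdt, hlt⟩ := natDegree_eq_of_isLead (neg_ne_zero.mpr one_ne_zero) ht
  refine ⟨D.natDegree_eq, D.monic, hd0, ?_, hdt, ?_, ?_⟩
  · have h1 : ((D.Φ.coeff 0).leadingCoeff) ^ (2 * p) = 1 := by
      have : ((((D.Φ.coeff 0).leadingCoeff) ^ (2 * p) : ℤ) : k) = ((1 : ℤ) : k) := by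
        rw [Int.cast_pow, hl0, hu, Int.cast_one]
      exact Int.cast_injective this
    exact IsUnit.of_pow_eq_one h1 (by omega)
  · have h1 : (D.Φ.coeff p).leadingCoeff = -1 := by
      have : (((D.Φ.coeff p).leadingCoeff : ℤ) : k) = ((-1 : ℤ) : k) := by
        rw [hlt, Int.cast_neg, Int.cast_one]
      exact Int.cast_injective this
    rw [h1]
    exact isUnit_one.neg
  · intro i hi0 hip
    obtain ⟨j, rfl⟩ : ∃ j, i = j + 1 := ⟨i - 1, by omega⟩
    obtain ⟨a₂, -, h⟩ := isLead_coeff_phiAt_succ (k := k) D hp hζ j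
    rw [coeff_phiAt] at h
    refine natDegree_le_of_isLead h ?_
    push_cast
    nlinarith

/-- **The modular polynomial of level `p` has modular shape.** -/
theorem isModularShape_of_modPolyData (hp : 1 < p) : IsModularShape p D.Φ := by
  have hp0 : p ≠ 0 := NeZero.ne p
  have hζ := Complex.isPrimitiveRoot_exp p hp0
  have hu : IsUnit (Complex.exp (2 * Real.pi * Complex.I / p)) := hζ.isUnit hp0
  obtain ⟨ζ, hζ'⟩ := hu
  have hζ'' : IsPrimitiveRoot ζ p := by
    rw [← IsPrimitiveRoot.coe_units_iff, hζ']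
    exact hζ
  exact isModularShape_of_primitiveRoot (k := ℂ) D hp hζ''

end Shape

end Fermat.Agent.S15.H386
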