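/-
Row S15, node GEO (helper386): existence of a polynomial of modular shape vanishing at
`(j(q^d), j(q^{dp}))` — the classical modular polynomial `Φ_p` (row S28, `H807.nonempty_modPolyData`).
-/
import Mathlib
import Fermat.Agent.S15.H386.ModShape
import Fermat.Agent.S28.H807.Analytic

set_option autoImplicit false

noncomputable section

open ModularCurve HahnSeries Polynomial
open Fermat.Agent.S28 Fermat.Agent.S28.H386 Fermat.Agent.S15.H962

universe u

namespace Fermat.Agent.S15.H386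

/-- `eval2` commutes with ring homomorphisms of fields. -/
theorem map_eval2 {K L : Type*} [Field K] [Field L] (φ : K →+* L) (Φ : ℤ[X][X]) (a b : K) :
    φ (eval2 Φ a b) = eval2 Φ (φ a) (φ b) := by
  unfold eval2
  rw [Polynomial.hom_eval₂]
  congr 1
  refine Polynomial.ringHom_ext (fun z => ?_) ?_
  · simp
  · simp

theorem eval2_eq_zero_iff_map {K L : Type*} [Field K] [Field L] (φ : K →+* L) (Φ : ℤ[X][X])
    (a b : K) : eval2 Φ (φ a) (φ b) = 0 ↔ eval2 Φ a b = 0 := by
  rw [← map_eval2, map_eq_zero]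

section

variable {p : ℕ} [NeZero p] (D : ModPolyData p)

theorem eval2_eq_eval_phiAt {K : Type*} [Field K] (Φ : ℤ[X][X]) (a b : K) :
    eval2 Φ a b = (phiAt Φ a).eval b := by
  rw [eval_phiAt]
  rfl

/-- `Φ_p(j(q^d), j(q^{dp})) = 0`. -/
theorem eval2_jd_jdp (k : Type*) [Field k] (d : ℕ) [NeZero d] :
    eval2 D.Φ (jd k d) (jd k (d * p)) = 0 := by
  rw [eval2_eq_eval_phiAt]
  exact eval_jdp D k d

/-- `Φ_p(j(q^{dp}), j(q^d)) = 0`. -/
theorem eval2_jdp_jd (k : Type*) [Field k] (d : ℕ) [NeZero d] :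
    eval2 D.Φ (jd k (d * p)) (jd k d) = 0 := by
  rw [eval2_eq_eval_phiAt]
  exact eval_jd D k d

end

/-- **Existence of the modular polynomial with its shape**: for `p` prime there is
`Φ ∈ ℤ[X][Y]` of modular shape with `Φ(j(q^d), j(q^{dp})) = 0 = Φ(j(q^{dp}), j(q^d))` in
`k((q))`, for every field `k` and every `d ≥ 1`. -/
theorem exists_isModularShape (p : ℕ) [NeZero p] (hp : p.Prime) :
    ∃ Φ : ℤ[X][X], IsModularShape p Φ ∧
      ∀ (k : Type u) [Field k] (d : ℕ) [NeZero d],
        eval2 Φ (qExpand k d (jqModC k)) (qExpand k (d * p) (jqModC k)) = 0 ∧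
        eval2 Φ (qExpand k (d * p) (jqModC k)) (qExpand k d (jqModC k)) = 0 := by
  obtain ⟨D⟩ := H807.nonempty_modPolyData p hp
  exact ⟨D.Φ, isModularShape_of_modPolyData D hp.one_lt, fun k _ d _ =>
    ⟨eval2_jd_jdp D k d, eval2_jdp_jd D k d⟩⟩

end Fermat.Agent.S15.H386
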